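/-
PROJECT D (S48), part B, block B2 (abstract valuation theory), file 1 (helper3).

`K ⊆ K'` fields, `A'` a valuation subring of `K'`, `A₀ = A' ∩ K`.

* `ResIndep A' y` : the family `y` lies in `A'` and its residues are linearly independent over the
  residue field of `A₀` (spelled with valuations only, no residue field is formed).
* `ResIndep.le_valuation_sum` : orthogonality `v(c i) ≤ v(∑ c j • y j)`.
* `ResIndep.linearIndependent` : such a family is linearly independent over `K`
  (residue degree `≤` degree).
* `eq_of_resIndep` : **full residue degree ⇒ unique extension**: if `[K' : K] = n` and `A'` carries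
  a residually independent family of `n` elements, then every valuation subring `A''` of `K'` with
  `A'' ∩ K = A' ∩ K` is equal to `A'`.

No discreteness, no value groups, any rank.  Mathlib only.
-/
import Mathlib

set_option autoImplicit false

namespace Fermat.Agent.S48.B.Val.Unique

open Polynomial

section General

variable {L : Type*} [Field L]

theorem valuation_lt_one_iff (A : ValuationSubring L) (z : L) :
    A.valuation z < 1 ↔ z = 0 ∨ z⁻¹ ∉ A := by
  rw [← ValuationSubring.mem_nonunits_iff, ValuationSubring.mem_nonunits_iff_or]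

/-- A root of a monic polynomial whose coefficients are sent into `A` lies in `A`
(a valuation ring is integrally closed; stated for an arbitrary coefficient ring). -/
theorem mem_of_monic_eval₂ (A : ValuationSubring L) {R : Type*} [CommRing R] (f : R →+* L)
    (hf : ∀ r, f r ∈ A) (p : R[X]) (hp : p.Monic) (x : L) (hx : p.eval₂ f x = 0) : x ∈ A := by
  rw [← A.valuation_le_one_iff]
  by_contra hlt
  rw [not_le] at hlt
  have hn : p.natDegree ≠ 0 := by
    intro hn
    rw [Polynomial.natDegree_eq_zero] at hn
    obtain ⟨c, rfl⟩ := hn
    have hc : c = 1 := by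
      have := hp.leadingCoeff
      rwa [Polynomial.leadingCoeff_C] at this
    rw [hc, Polynomial.eval₂_C, map_one] at hx
    exact one_ne_zero hx
  rw [Polynomial.eval₂_eq_sum_range, Finset.sum_range_succ, hp.coeff_natDegree, map_one,
    one_mul, add_eq_zero_iff_eq_neg] at hx
  have hx' := congrArg A.valuation hx
  rw [Valuation.map_neg, map_pow] at hx'
  refine absurd hx' (ne_of_lt ?_)
  refine A.valuation.map_sum_lt ?_ ?_
  · exact pow_ne_zero _ (ne_of_gt (lt_trans zero_lt_one hlt))
  · intro i hi
    rw [Finset.mem_range] at hi
    rw [map_mul, map_pow]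
    exact mul_lt_of_le_one_of_lt ((A.valuation_le_one_iff _).2 (hf _))
      (pow_lt_pow_right₀ hlt hi)

end General

variable {K K' : Type*} [Field K] [Field K'] [Algebra K K']

/-- The family `y` lies in `A'` and its residues are linearly independent over the residue field
of `A' ∩ K`. -/
def ResIndep (A' : ValuationSubring K') {ι : Type*} (y : ι → K') : Prop :=
  (∀ i, y i ∈ A') ∧
    ∀ (s : Finset ι) (c : ι → K), (∀ i ∈ s, algebraMap K K' (c i) ∈ A') →
      A'.valuation (∑ i ∈ s, algebraMap K K' (c i) * y i) < 1 →
      ∀ i ∈ s, A'.valuation (algebraMap K K' (c i)) < 1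

namespace ResIndep

variable {A' : ValuationSubring K'} {ι : Type*} {y : ι → K'}

/-- The value of a combination is the value of its largest coefficient. -/
theorem valuation_sum_eq (h : ResIndep (K := K) A' y) (s : Finset ι) (c : ι → K) (i₀ : ι)
    (hi₀ : i₀ ∈ s) (hne : c i₀ ≠ 0)
    (hmax : ∀ i ∈ s, A'.valuation (algebraMap K K' (c i)) ≤
      A'.valuation (algebraMap K K' (c i₀))) :
    A'.valuation (∑ i ∈ s, algebraMap K K' (c i) * y i) =
      A'.valuation (algebraMap K K' (c i₀)) := by
  set v := A'.valuation with hv
  have hne' : algebraMap K K' (c i₀) ≠ 0 := by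
    rwa [Ne, map_eq_zero]
  have hv0 : v (algebraMap K K' (c i₀)) ≠ 0 := by
    rwa [Ne, map_eq_zero]
  -- normalised coefficients
  set d : ι → K := fun i => c i / c i₀ with hd
  have hdv : ∀ i ∈ s, v (algebraMap K K' (d i)) ≤ 1 := by
    intro i hi
    rw [hd]
    simp only
    rw [map_div₀, map_div₀]
    exact div_le_one_of_le₀ (hmax i hi) zero_le
  have hsum : ∑ i ∈ s, algebraMap K K' (d i) * y i =
      (∑ i ∈ s, algebraMap K K' (c i) * y i) / algebraMap K K' (c i₀) := by
    rw [Finset.sum_div]
    refine Finset.sum_congr rfl fun i _ => ?_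
    rw [hd]
    simp only
    rw [map_div₀]
    field_simp
  have hle : v (∑ i ∈ s, algebraMap K K' (d i) * y i) ≤ 1 := by
    rw [hv, A'.valuation_le_one_iff]
    refine Subring.sum_mem _ fun i hi => ?_
    exact A'.mul_mem _ _ ((A'.valuation_le_one_iff _).1 (hdv i hi)) (h.1 i)
  have hnlt : ¬ v (∑ i ∈ s, algebraMap K K' (d i) * y i) < 1 := by
    intro hlt
    have := h.2 s d (fun i hi => (A'.valuation_le_one_iff _).1 (hdv i hi)) hlt i₀ hi₀
    rw [hd] at this
    simp only at this
    rw [div_self hne, map_one, map_one] at this
    exact lt_irrefl _ this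
  have h1 : v (∑ i ∈ s, algebraMap K K' (d i) * y i) = 1 :=
    le_antisymm hle (not_lt.1 hnlt)
  rw [hsum, map_div₀, div_eq_one_iff_eq hv0] at h1
  exact h1

/-- Orthogonality: every coefficient has value at most the value of the combination. -/
theorem le_valuation_sum (h : ResIndep (K := K) A' y) (s : Finset ι) (c : ι → K) :
    ∀ i ∈ s, A'.valuation (algebraMap K K' (c i)) ≤
      A'.valuation (∑ j ∈ s, algebraMap K K' (c j) * y j) := by
  intro i hi
  obtain ⟨i₀, hi₀, hmax⟩ :=
    Finset.exists_max_image s (fun j => A'.valuation (algebraMap K K' (c j))) ⟨i, hi⟩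
  by_cases hne : c i₀ = 0
  · have h0 : A'.valuation (algebraMap K K' (c i)) ≤ 0 := by
      have := hmax i hi
      rwa [hne, map_zero, map_zero] at this
    exact le_trans h0 zero_le
  · rw [h.valuation_sum_eq s c i₀ hi₀ hne hmax]
    exact hmax i hi

/-- Residue degree `≤` degree: a residually independent family is linearly independent. -/
theorem linearIndependent (h : ResIndep (K := K) A' y) : LinearIndependent K y := by
  rw [linearIndependent_iff']
  intro s g hg i hi
  have h1 := h.le_valuation_sum s g i hi
  have h2 : ∑ j ∈ s, algebraMap K K' (g j) * y j = 0 := by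
    rw [← hg]
    exact Finset.sum_congr rfl fun j _ => (Algebra.smul_def _ _).symm
  rw [h2, map_zero, le_zero_iff, map_eq_zero, map_eq_zero] at h1
  exact h1

end ResIndep

section Unique

variable [FiniteDimensional K K'] {A' A'' : ValuationSubring K'}
variable {ι : Type*} [Fintype ι] {y : ι → K'}

/-- The basis of `K'` over `K` given by a residually independent family of `[K' : K]` elements. -/
noncomputable def basisOf (hy : ResIndep (K := K) A' y)
    (hcard : Fintype.card ι = Module.finrank K K') : Module.Basis ι K K' :=
  haveI : Nonempty ι := Fintype.card_pos_iff.1 (hcard ▸ Module.finrank_pos)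
  basisOfLinearIndependentOfCardEqFinrank hy.linearIndependent hcard

theorem basisOf_apply (hy : ResIndep (K := K) A' y)
    (hcard : Fintype.card ι = Module.finrank K K') (i : ι) : basisOf hy hcard i = y i := by
  have : Nonempty ι := ⟨i⟩
  unfold basisOf
  rw [coe_basisOfLinearIndependentOfCardEqFinrank]

theorem sum_repr (hy : ResIndep (K := K) A' y)
    (hcard : Fintype.card ι = Module.finrank K K') (x : K') :
    ∑ i, algebraMap K K' ((basisOf hy hcard).repr x i) * y i = x := by
  conv_rhs => rw [← (basisOf hy hcard).sum_repr x]
  refine Finset.sum_congr rfl fun i _ => ?_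
  rw [basisOf_apply, Algebra.smul_def]

/-- Coefficients of an element are bounded by its value. -/
theorem valuation_repr_le (hy : ResIndep (K := K) A' y)
    (hcard : Fintype.card ι = Module.finrank K K') (x : K') (i : ι) :
    A'.valuation (algebraMap K K' ((basisOf hy hcard).repr x i)) ≤ A'.valuation x := by
  have := hy.le_valuation_sum Finset.univ (fun j => (basisOf hy hcard).repr x j) i
    (Finset.mem_univ i)
  rwa [sum_repr hy hcard x] at this

omit [FiniteDimensional K K'] in
/-- Transfer of `∈` along equal contractions. -/
theorem algebraMap_mem_iff (hcomap : A''.comap (algebraMap K K') = A'.comap (algebraMap K K'))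
    (c : K) : algebraMap K K' c ∈ A'' ↔ algebraMap K K' c ∈ A' := by
  rw [← ValuationSubring.mem_comap, ← ValuationSubring.mem_comap, hcomap]

omit [FiniteDimensional K K'] in
/-- Transfer of `v < 1` along equal contractions. -/
theorem algebraMap_lt_one_iff
    (hcomap : A''.comap (algebraMap K K') = A'.comap (algebraMap K K')) (c : K) :
    A''.valuation (algebraMap K K' c) < 1 ↔ A'.valuation (algebraMap K K' c) < 1 := by
  rw [valuation_lt_one_iff, valuation_lt_one_iff, ← map_inv₀,
    algebraMap_mem_iff hcomap]

/-- `A'` is a finite `A₀`-module, hence integral over `A₀`, hence inside every valuation subring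
of `K'` containing `A₀`. -/
theorem le_of_resIndep (hcomap : A''.comap (algebraMap K K') = A'.comap (algebraMap K K'))
    (hy : ResIndep (K := K) A' y) (hcard : Fintype.card ι = Module.finrank K K') :
    A' ≤ A'' := by
  classical
  intro x hx
  set b := basisOf hy hcard with hb
  -- the matrix of multiplication by `x` has entries in `A₀`
  set M : Matrix ι ι K := Algebra.leftMulMatrix b x with hM
  have hMmem : ∀ i j, algebraMap K K' (M i j) ∈ A' := by
    intro i j
    rw [hM, Algebra.leftMulMatrix_eq_repr_mul, ← A'.valuation_le_one_iff]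
    refine le_trans (valuation_repr_le hy hcard _ i) ?_
    rw [A'.valuation_le_one_iff, hb, basisOf_apply]
    exact A'.mul_mem _ _ hx (hy.1 j)
  -- the characteristic polynomial kills `x`
  have hchar : Polynomial.aeval x M.charpoly = 0 := by
    have h1 := Matrix.aeval_self_charpoly M
    have h2 : Polynomial.aeval (Algebra.leftMulMatrix b x) M.charpoly = 0 := h1
    rw [Polynomial.aeval_algHom_apply] at h2
    exact (Algebra.leftMulMatrix_injective b) (by rw [h2, map_zero])
  -- coefficients of the characteristic polynomial lie in `A₀`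
  set A₀ : ValuationSubring K := A'.comap (algebraMap K K') with hA₀
  have hM₀ : ∀ i j, M i j ∈ A₀ := fun i j => ValuationSubring.mem_comap.2 (hMmem i j)
  set M₀ : Matrix ι ι A₀ := fun i j => ⟨M i j, hM₀ i j⟩ with hM₀def
  have hmap : M₀.map A₀.subtype = M := by
    ext i j
    rfl
  have hcp : M.charpoly = M₀.charpoly.map A₀.subtype := by
    rw [← hmap, Matrix.charpoly_map]
  refine mem_of_monic_eval₂ A'' ((algebraMap K K').comp A₀.subtype) ?_ M₀.charpoly
    (Matrix.charpoly_monic M₀) x ?_
  · intro r
    rw [RingHom.comp_apply, algebraMap_mem_iff hcomap]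
    exact ValuationSubring.mem_comap.1 r.2
  · rw [← Polynomial.eval₂_map, ← hcp]
    exact hchar

/-- **Full residue degree ⇒ unique extension.** -/
theorem eq_of_resIndep (hcomap : A''.comap (algebraMap K K') = A'.comap (algebraMap K K'))
    (hy : ResIndep (K := K) A' y) (hcard : Fintype.card ι = Module.finrank K K') :
    A'' = A' := by
  refine le_antisymm ?_ (le_of_resIndep hcomap hy hcard)
  intro x hx
  by_contra hx'
  have hx0 : x ≠ 0 := by
    rintro rfl
    exact hx' A'.zero_mem
  -- `x⁻¹` is a non-unit of `A'`
  have hinv : A'.valuation x⁻¹ < 1 := by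
    rw [valuation_lt_one_iff, inv_inv]
    exact Or.inr hx'
  -- hence all its coefficients are non-units of `A₀`, hence of `A''`
  have hcoef : ∀ i, A''.valuation (algebraMap K K' ((basisOf hy hcard).repr x⁻¹ i)) < 1 := by
    intro i
    rw [algebraMap_lt_one_iff hcomap]
    exact lt_of_le_of_lt (valuation_repr_le hy hcard x⁻¹ i) hinv
  have hlt : A''.valuation x⁻¹ < 1 := by
    rw [← sum_repr hy hcard x⁻¹]
    refine A''.valuation.map_sum_lt one_ne_zero fun i _ => ?_
    rw [map_mul]
    rw [mul_comm]
    exact mul_lt_of_le_one_of_lt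
      ((A''.valuation_le_one_iff _).2 (le_of_resIndep hcomap hy hcard (hy.1 i))) (hcoef i)
  rw [valuation_lt_one_iff, inv_inv] at hlt
  rcases hlt with h | h
  · exact hx0 (inv_eq_zero.1 h)
  · exact h hx

end Unique

end Fermat.Agent.S48.B.Val.Unique
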