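/-
PROJECT D (S48), part B, block B2 (abstract valuation theory), file 2 (helper3).

Extensions of a valuation ring in a finite Galois extension are conjugate.

* `isIntegral_lead_mul`, `isIntegral_tail` : if `∑_{i ≤ n} a i x^i = 0` with the `a i` integral over
  `R`, then every tail `a m + a (m+1) x + ⋯ + a n x^(n-m)` is integral over `R` (`m = n - 1`: the
  classical `a n x`).  Sequence form, no polynomials.
* `exists_integral_div` : **the centre determines the valuation ring**: `L / K` algebraic, `B` a
  valuation subring of `L`, `A₀ = B ∩ K`; every `x ∈ B` is `z / y` with `y, z` integral over `A₀`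
  and `y` a unit of `B` (so `B` is the localisation of the integral closure at its centre).
* `le_of_units` : two extensions of `A₀` are comparable as soon as the units among the integral
  elements are.
* `exists_smul_eq` : **conjugacy**: `L / K` finite Galois, `A`, `A'` valuation subrings of `L` with
  `A ∩ K = A' ∩ K`; then `g • A = A'` for some `g ∈ Gal(L/K)`.

Any rank, no discreteness.  Mathlib only (+ `Val/Unique.lean`).
-/
import Mathlib
import Fermat.Agent.S48.B.Val.Unique

set_option autoImplicit false

namespace Fermat.Agent.S48.B.Val.Conj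

open Polynomial
open scoped Pointwise

section Tails

variable {R L : Type*} [CommRing R] [CommRing L] [Algebra R L]


theorem isIntegral_lead_mul (n : ℕ) (a : ℕ → L) (ha : ∀ i, IsIntegral R (a i)) (x : L)
    (h : ∑ i ∈ Finset.range (n + 1), a i * x ^ i = 0) : IsIntegral R (a n * x) := by
  cases n with
  | zero =>
    rw [zero_add, Finset.sum_range_one, pow_zero, mul_one] at h
    rw [h, zero_mul]
    exact isIntegral_zero
  | succ k =>
    set C := integralClosure R L with hC
    let c : Fin (k + 1) → C := fun i =>
      ⟨a i * a (k + 1) ^ (k - (i : ℕ)), (ha i).mul ((ha (k + 1)).pow _)⟩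
    let p : C[X] := X ^ (k + 1) + ∑ i : Fin (k + 1), Polynomial.C (c i) * X ^ (i : ℕ)
    have hp : p.Monic := monic_X_pow_add (degree_sum_fin_lt c)
    have heval : aeval (a (k + 1) * x) p = 0 := by
      have h1 : aeval (a (k + 1) * x) p =
          (a (k + 1) * x) ^ (k + 1) +
            ∑ i ∈ Finset.range (k + 1), a i * a (k + 1) ^ (k - i) * (a (k + 1) * x) ^ i := by
        simp only [p, map_add, map_pow, aeval_X, map_sum, map_mul, aeval_C]
        rw [← Fin.sum_univ_eq_sum_range
          (fun i => a i * a (k + 1) ^ (k - i) * (a (k + 1) * x) ^ i) (k + 1)]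
        rfl
      rw [h1]
      have h2 : ∀ i ∈ Finset.range (k + 1),
          a i * a (k + 1) ^ (k - i) * (a (k + 1) * x) ^ i = a (k + 1) ^ k * (a i * x ^ i) := by
        intro i hi
        rw [Finset.mem_range] at hi
        have : k - i + i = k := Nat.sub_add_cancel (Nat.lt_succ_iff.1 hi)
        rw [mul_pow]
        calc a i * a (k + 1) ^ (k - i) * (a (k + 1) ^ i * x ^ i)
            = a (k + 1) ^ (k - i + i) * (a i * x ^ i) := by rw [pow_add]; ring
          _ = _ := by rw [this]
      rw [Finset.sum_congr rfl h2, ← Finset.mul_sum]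
      have h3 : (a (k + 1) * x) ^ (k + 1) = a (k + 1) ^ k * (a (k + 1) * x ^ (k + 1)) := by
        rw [mul_pow, pow_succ]; ring
      rw [h3, ← mul_add, add_comm (a (k + 1) * x ^ (k + 1)),
        ← Finset.sum_range_succ (fun i => a i * x ^ i) (k + 1), h, mul_zero]
    have hz : IsIntegral C (a (k + 1) * x) := ⟨p, hp, heval⟩
    exact isIntegral_trans _ hz

/-- The tails `a m + a (m+1) x + ⋯ + a n x^(n-m)` of a relation `∑ a i x^i = 0`. -/
def tail (n : ℕ) (a : ℕ → L) (x : L) (m : ℕ) : L :=
  ∑ i ∈ Finset.range (n + 1 - m), a (m + i) * x ^ i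

theorem tail_zero (n : ℕ) (a : ℕ → L) (x : L) :
    tail n a x 0 = ∑ i ∈ Finset.range (n + 1), a i * x ^ i := by
  unfold tail
  rw [Nat.sub_zero]
  exact Finset.sum_congr rfl fun i _ => by rw [zero_add]

theorem tail_of_lt (n : ℕ) (a : ℕ → L) (x : L) {m : ℕ} (h : n < m) : tail n a x m = 0 := by
  unfold tail
  rw [Nat.sub_eq_zero_of_le (Nat.succ_le_of_lt h), Finset.range_zero, Finset.sum_empty]

theorem tail_succ (n : ℕ) (a : ℕ → L) (x : L) {m : ℕ} (hm : m ≤ n) :
    tail n a x m = a m + x * tail n a x (m + 1) := by
  unfold tail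
  have h1 : n + 1 - m = (n - m) + 1 := by omega
  have h2 : n + 1 - (m + 1) = n - m := by omega
  rw [h1, h2, Finset.sum_range_succ', add_zero, pow_zero, mul_one, add_comm, Finset.mul_sum]
  congr 1
  refine Finset.sum_congr rfl fun i _ => ?_
  rw [pow_succ, add_assoc, add_comm i 1]
  ring

theorem head_add_tail (n : ℕ) (a : ℕ → L) (x : L) :
    ∀ m, m ≤ n + 1 → ∑ i ∈ Finset.range m, a i * x ^ i + x ^ m * tail n a x m =
      ∑ i ∈ Finset.range (n + 1), a i * x ^ i := by
  intro m
  induction m with
  | zero =>
    intro _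
    rw [Finset.range_zero, Finset.sum_empty, zero_add, pow_zero, one_mul, tail_zero]
  | succ m ih =>
    intro hm
    have hm' : m ≤ n := Nat.le_of_succ_le_succ hm
    rw [← ih (Nat.le_succ_of_le hm'), Finset.sum_range_succ, tail_succ n a x hm', pow_succ]
    ring

theorem isIntegral_tail (n : ℕ) (a : ℕ → L) (ha : ∀ i, IsIntegral R (a i)) (x : L)
    (h : ∑ i ∈ Finset.range (n + 1), a i * x ^ i = 0) (m : ℕ) :
    IsIntegral R (tail n a x m) := by
  have key : ∀ k m, m + k = n + 1 → IsIntegral R (tail n a x m) := by
    intro k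
    induction k with
    | zero =>
      intro m hm
      rw [tail_of_lt n a x (by omega)]
      exact isIntegral_zero
    | succ k ih =>
      intro m hm
      have hm' : m ≤ n := by omega
      have hT : IsIntegral R (tail n a x (m + 1)) := ih (m + 1) (by omega)
      set b : ℕ → L := fun i => if i ≤ m then a i else tail n a x (m + 1) with hb
      have hbint : ∀ i, IsIntegral R (b i) := by
        intro i
        rw [hb]
        simp only
        split_ifs
        · exact ha i
        · exact hT
      have hrel : ∑ i ∈ Finset.range (m + 1 + 1), b i * x ^ i = 0 := by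
        rw [Finset.sum_range_succ, ← h, ← head_add_tail n a x (m + 1) (by omega)]
        have h1 : b (m + 1) = tail n a x (m + 1) := by
          rw [hb]; simp only; rw [if_neg (by omega)]
        rw [h1, mul_comm (tail n a x (m + 1))]
        congr 1
        refine Finset.sum_congr rfl fun i hi => ?_
        rw [Finset.mem_range] at hi
        rw [hb]; simp only; rw [if_pos (by omega)]
      have h2 := isIntegral_lead_mul (R := R) (m + 1) b hbint x hrel
      have h3 : b (m + 1) = tail n a x (m + 1) := by
        rw [hb]; simp only; rw [if_neg (by omega)]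
      rw [h3] at h2
      rw [tail_succ n a x hm', mul_comm]
      exact (ha m).add h2
  by_cases hm : m ≤ n + 1
  · exact key (n + 1 - m) m (by omega)
  · rw [tail_of_lt n a x (by omega)]
    exact isIntegral_zero

end Tails

section Centre

variable {K L : Type*} [Field K] [Field L] [Algebra K L]

/-- **The centre determines the valuation ring** (algebraic extensions): every element of a
valuation subring `B` of `L` is a quotient `z / y` of elements integral over `A₀ = B ∩ K` with
`y` a unit of `B`. -/
theorem exists_integral_div [Algebra.IsAlgebraic K L] (B : ValuationSubring L) {x : L}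
    (hx : x ∈ B) :
    ∃ y z : L, IsIntegral (B.comap (algebraMap K L)) y ∧ IsIntegral (B.comap (algebraMap K L)) z ∧
      B.valuation y = 1 ∧ x * y = z := by
  classical
  set A₀ := B.comap (algebraMap K L) with hA₀
  set v := B.valuation with hv
  have hxv : v x ≤ 1 := (B.valuation_le_one_iff x).2 hx
  have hint : IsIntegral K x := (Algebra.IsAlgebraic.isAlgebraic x).isIntegral
  set p := minpoly K x with hp
  set n := p.natDegree with hn
  have hmonic : p.Monic := minpoly.monic hint
  -- index of a coefficient of largest value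
  obtain ⟨i₁, hi₁, hmax⟩ := Finset.exists_max_image (Finset.range (n + 1))
    (fun i => v (algebraMap K L (p.coeff i))) ⟨n, Finset.self_mem_range_succ n⟩
  have hlead : p.coeff n = 1 := hmonic.coeff_natDegree
  have hv1 : (1 : _) ≤ v (algebraMap K L (p.coeff i₁)) := by
    have := hmax n (Finset.self_mem_range_succ n)
    rwa [hlead, map_one, map_one] at this
  have hne : p.coeff i₁ ≠ 0 := by
    intro h0
    rw [h0, map_zero, map_zero] at hv1
    exact not_le.2 zero_lt_one hv1
  have hneL : algebraMap K L (p.coeff i₁) ≠ 0 := by rwa [Ne, map_eq_zero]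
  have hvne : v (algebraMap K L (p.coeff i₁)) ≠ 0 := by rwa [Ne, map_eq_zero]
  have hmax' : ∀ i, v (algebraMap K L (p.coeff i)) ≤ v (algebraMap K L (p.coeff i₁)) := by
    intro i
    by_cases hi : i ∈ Finset.range (n + 1)
    · exact hmax i hi
    · rw [Finset.mem_range, not_lt] at hi
      rw [Polynomial.coeff_eq_zero_of_natDegree_lt (by omega), map_zero, map_zero]
      exact zero_le
  -- normalised coefficients
  set a : ℕ → L := fun i => algebraMap K L (p.coeff i / p.coeff i₁) with ha
  have hav : ∀ i, v (a i) ≤ 1 := by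
    intro i
    rw [ha]
    simp only
    rw [map_div₀, map_div₀]
    exact div_le_one_of_le₀ (hmax' i) zero_le
  have haint : ∀ i, IsIntegral A₀ (a i) := by
    intro i
    have hmem : p.coeff i / p.coeff i₁ ∈ A₀ := by
      rw [hA₀, ValuationSubring.mem_comap, ← B.valuation_le_one_iff]
      exact hav i
    have : a i = algebraMap A₀ L ⟨_, hmem⟩ := by
      rw [IsScalarTower.algebraMap_apply A₀ K L]
      rfl
    rw [this]
    exact isIntegral_algebraMap
  have hrel : ∑ i ∈ Finset.range (n + 1), a i * x ^ i = 0 := by
    have h0 : aeval x p = 0 := minpoly.aeval K x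
    rw [aeval_eq_sum_range] at h0
    have : ∑ i ∈ Finset.range (n + 1), a i * x ^ i =
        (algebraMap K L (p.coeff i₁))⁻¹ * ∑ i ∈ Finset.range (n + 1), p.coeff i • x ^ i := by
      rw [Finset.mul_sum]
      refine Finset.sum_congr rfl fun i _ => ?_
      rw [ha]
      simp only
      rw [map_div₀, Algebra.smul_def]
      field_simp
    rw [this, h0, mul_zero]
  have ha1 : a i₁ = 1 := by
    rw [ha]
    simp only
    rw [div_self hne, map_one]
  -- the largest index with a unit coefficient
  set U := (Finset.range (n + 1)).filter (fun i => v (a i) = 1) with hU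
  have hUne : U.Nonempty := ⟨i₁, by
    rw [hU, Finset.mem_filter]
    exact ⟨hi₁, by rw [ha1, map_one]⟩⟩
  set k := U.max' hUne with hk
  have hkU : k ∈ U := Finset.max'_mem U hUne
  rw [hU, Finset.mem_filter, Finset.mem_range] at hkU
  obtain ⟨hkn, hvk⟩ := hkU
  have hlt : ∀ i, k < i → i < n + 1 → v (a i) < 1 := by
    intro i hki hin
    refine lt_of_le_of_ne (hav i) fun h1 => ?_
    have : i ∈ U := by
      rw [hU, Finset.mem_filter, Finset.mem_range]
      exact ⟨hin, h1⟩
    exact absurd (Finset.le_max' U i this) (not_le.2 hki)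
  -- the tail at `k` is a unit of `B`
  have hkn' : k ≤ n := Nat.lt_succ_iff.1 hkn
  have hy : v (tail n a x k) = 1 := by
    have h1 : n + 1 - k = (n - k) + 1 := by omega
    unfold tail
    rw [h1, Finset.sum_range_succ', add_zero, pow_zero, mul_one]
    have hrest : v (∑ i ∈ Finset.range (n - k), a (k + (i + 1)) * x ^ (i + 1)) < 1 := by
      refine v.map_sum_lt one_ne_zero fun i hi => ?_
      rw [Finset.mem_range] at hi
      rw [map_mul, map_pow]
      have h2 : v (a (k + (i + 1))) < 1 := hlt _ (by omega) (by omega)
      have h3 : v x ^ (i + 1) ≤ 1 := pow_le_one₀ zero_le hxv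
      rw [mul_comm]
      exact mul_lt_of_le_one_of_lt h3 h2
    rw [v.map_add_eq_of_lt_right (by rw [hvk]; exact hrest), hvk]
  -- `k ≥ 1`
  have hk1 : 1 ≤ k := by
    by_contra hk0
    have hk0' : k = 0 := by omega
    rw [hk0', tail_zero, hrel, map_zero] at hy
    exact zero_ne_one hy
  obtain ⟨k', hk'⟩ : ∃ k', k = k' + 1 := ⟨k - 1, by omega⟩
  refine ⟨tail n a x k, x * tail n a x k, isIntegral_tail n a haint x hrel k, ?_, hy, rfl⟩
  have h4 : x * tail n a x k = tail n a x k' - a k' := by
    rw [tail_succ n a x (show k' ≤ n by omega), ← hk']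
    ring
  rw [h4]
  exact (isIntegral_tail n a haint x hrel k').sub (haint k')

end Centre

section Conjugacy

variable {K L : Type*} [Field K] [Field L] [Algebra K L]

/-- An element integral over `A₀ = B ∩ K` lies in `B`. -/
theorem mem_of_isIntegral {A₀ : ValuationSubring K} (B : ValuationSubring L)
    (hB : B.comap (algebraMap K L) = A₀) {z : L} (hz : IsIntegral A₀ z) : z ∈ B := by
  obtain ⟨p, hp, hpz⟩ := hz
  refine Unique.mem_of_monic_eval₂ B (algebraMap A₀ L) ?_ p hp z hpz
  intro r
  rw [IsScalarTower.algebraMap_apply A₀ K L, ← ValuationSubring.mem_comap, hB]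
  exact r.2

/-- Two extensions of `A₀` to an algebraic extension are comparable as soon as the units among the
integral elements are. -/
theorem le_of_units [Algebra.IsAlgebraic K L] {A₀ : ValuationSubring K}
    (B₁ B₂ : ValuationSubring L) (h₁ : B₁.comap (algebraMap K L) = A₀)
    (h₂ : B₂.comap (algebraMap K L) = A₀)
    (hu : ∀ y : L, IsIntegral A₀ y → B₁.valuation y = 1 → B₂.valuation y = 1) : B₁ ≤ B₂ := by
  intro x hx
  subst h₁
  obtain ⟨y, z, hy, hz, hy1, hxy⟩ := exists_integral_div (K := K) B₁ hx
  have hy2 := hu y hy hy1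
  have hz2 : z ∈ B₂ := mem_of_isIntegral B₂ h₂ hz
  have hy0 : y ≠ 0 := by
    rintro rfl
    rw [map_zero] at hy2
    exact zero_ne_one hy2
  have hx' : x = z * y⁻¹ := by
    rw [← hxy, mul_assoc, mul_inv_cancel₀ hy0, mul_one]
  rw [hx']
  refine B₂.mul_mem _ _ hz2 ?_
  rw [← B₂.valuation_le_one_iff, map_inv₀, hy2, inv_one]

/-- The centre of `B` on the integral closure of `A₀ = B ∩ K` in `L`. -/
def centre (A₀ : ValuationSubring K) (B : ValuationSubring L)
    (hB : B.comap (algebraMap K L) = A₀) : Ideal (integralClosure A₀ L) where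
  carrier := {c | B.valuation (c : L) < 1}
  zero_mem' := by
    change B.valuation ((0 : integralClosure A₀ L) : L) < 1
    rw [ZeroMemClass.coe_zero, map_zero]
    exact zero_lt_one
  add_mem' := fun {a b} ha hb => by
    change B.valuation ((a + b : integralClosure A₀ L) : L) < 1
    rw [Subalgebra.coe_add]
    exact B.valuation.map_add_lt ha hb
  smul_mem' := fun c x hx => by
    change B.valuation ((c * x : integralClosure A₀ L) : L) < 1
    rw [Subalgebra.coe_mul, map_mul]
    exact mul_lt_of_le_one_of_lt ((B.valuation_le_one_iff _).2 (mem_of_isIntegral B hB c.2)) hx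

theorem mem_centre {A₀ : ValuationSubring K} {B : ValuationSubring L}
    {hB : B.comap (algebraMap K L) = A₀} {c : integralClosure A₀ L} :
    c ∈ centre A₀ B hB ↔ B.valuation (c : L) < 1 := Iff.rfl

theorem centre_isPrime (A₀ : ValuationSubring K) (B : ValuationSubring L)
    (hB : B.comap (algebraMap K L) = A₀) : (centre A₀ B hB).IsPrime := by
  refine ⟨?_, ?_⟩
  · rw [Ideal.ne_top_iff_one, mem_centre, OneMemClass.coe_one, map_one]
    exact lt_irrefl _
  · intro a b hab
    rw [mem_centre, Subalgebra.coe_mul, map_mul] at hab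
    by_contra hcon
    rw [not_or, mem_centre, mem_centre, not_lt, not_lt] at hcon
    have ha : B.valuation (a : L) = 1 :=
      le_antisymm ((B.valuation_le_one_iff _).2 (mem_of_isIntegral B hB a.2)) hcon.1
    have hb : B.valuation (b : L) = 1 :=
      le_antisymm ((B.valuation_le_one_iff _).2 (mem_of_isIntegral B hB b.2)) hcon.2
    rw [ha, hb, one_mul] at hab
    exact lt_irrefl _ hab

/-- Galois automorphisms commute with scalars from `A₀`. -/
instance smulCommClass (A₀ : ValuationSubring K) : SMulCommClass (L ≃ₐ[K] L) A₀ L where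
  smul_comm g a x := by
    rw [Algebra.smul_def, Algebra.smul_def, AlgEquiv.smul_def, AlgEquiv.smul_def, map_mul]
    congr 1
    rw [IsScalarTower.algebraMap_apply A₀ K L, AlgEquiv.commutes]

/-- The invariants of the Galois group in the integral closure of `A₀` are `A₀`. -/
theorem isInvariant [FiniteDimensional K L] [IsGalois K L] (A₀ : ValuationSubring K) :
    Algebra.IsInvariant A₀ (integralClosure A₀ L) (L ≃ₐ[K] L) := by
  refine ⟨fun b hb => ?_⟩
  have hfix : ∀ f : L ≃ₐ[K] L, f (b : L) = (b : L) := fun f =>
    congrArg (fun c : integralClosure A₀ L => (c : L)) (hb f)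
  obtain ⟨k, hk⟩ := (IsGalois.mem_range_algebraMap_iff_fixed (F := K) (b : L)).2 hfix
  have hint : IsIntegral A₀ (algebraMap K L k) := by
    rw [hk]
    exact b.2
  rw [isIntegral_algebraMap_iff (algebraMap K L).injective] at hint
  obtain ⟨a, ha⟩ := IsIntegrallyClosed.algebraMap_eq_of_integral hint
  refine ⟨a, Subtype.ext ?_⟩
  change algebraMap A₀ L a = (b : L)
  rw [IsScalarTower.algebraMap_apply A₀ K L, ha, hk]

/-- **Conjugacy of the extensions of a valuation ring in a finite Galois extension.** -/
theorem exists_smul_eq [FiniteDimensional K L] [IsGalois K L] (A A' : ValuationSubring L)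
    (h : A.comap (algebraMap K L) = A'.comap (algebraMap K L)) :
    ∃ g : L ≃ₐ[K] L, g • A = A' := by
  set A₀ := A'.comap (algebraMap K L) with hA₀
  have hA : A.comap (algebraMap K L) = A₀ := h
  have hA' : A'.comap (algebraMap K L) = A₀ := rfl
  have := isInvariant (L := L) A₀
  have := centre_isPrime A₀ A hA
  have := centre_isPrime A₀ A' hA'
  have hunder : Ideal.under A₀ (centre A₀ A hA) = Ideal.under A₀ (centre A₀ A' hA') := by
    ext a
    rw [Ideal.under, Ideal.mem_comap, Ideal.mem_comap, mem_centre, mem_centre]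
    change A.valuation (algebraMap A₀ L a) < 1 ↔ A'.valuation (algebraMap A₀ L a) < 1
    rw [IsScalarTower.algebraMap_apply A₀ K L]
    exact Unique.algebraMap_lt_one_iff h _
  obtain ⟨g, hg⟩ := Algebra.IsInvariant.exists_smul_of_under_eq A₀ (integralClosure A₀ L)
    (L ≃ₐ[K] L) (centre A₀ A hA) (centre A₀ A' hA') hunder
  refine ⟨g, ?_⟩
  have hgA : (g • A).comap (algebraMap K L) = A₀ := by
    ext c
    rw [ValuationSubring.mem_comap, ValuationSubring.mem_pointwise_smul_iff_inv_smul_mem,
      AlgEquiv.smul_def, AlgEquiv.commutes, ← ValuationSubring.mem_comap, hA]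
  -- non-units among the integral elements correspond
  have hlt : ∀ y : L, IsIntegral A₀ y →
      ((g • A).valuation y < 1 ↔ A'.valuation y < 1) := by
    intro y hy
    have h1 : A'.valuation y < 1 ↔ A.valuation (g⁻¹ y) < 1 := by
      have : (⟨y, hy⟩ : integralClosure A₀ L) ∈ centre A₀ A' hA' ↔
          g⁻¹ • (⟨y, hy⟩ : integralClosure A₀ L) ∈ centre A₀ A hA := by
        rw [hg, Ideal.mem_pointwise_smul_iff_inv_smul_mem]
      exact this
    rw [h1, Unique.valuation_lt_one_iff, Unique.valuation_lt_one_iff,
      ValuationSubring.mem_pointwise_smul_iff_inv_smul_mem, AlgEquiv.smul_def, map_inv₀,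
      EmbeddingLike.map_eq_zero_iff]
  have key : ∀ y : L, IsIntegral A₀ y →
      ((g • A).valuation y = 1 ↔ A'.valuation y = 1) := by
    intro y hy
    have h1 : (g • A).valuation y ≤ 1 :=
      ((g • A).valuation_le_one_iff _).2 (mem_of_isIntegral _ hgA hy)
    have h2 : A'.valuation y ≤ 1 :=
      (A'.valuation_le_one_iff _).2 (mem_of_isIntegral _ hA' hy)
    constructor
    · intro h
      refine le_antisymm h2 (not_lt.1 fun hlt' => ?_)
      have := (hlt y hy).2 hlt'
      rw [h] at this
      exact lt_irrefl _ this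
    · intro h
      refine le_antisymm h1 (not_lt.1 fun hlt' => ?_)
      have := (hlt y hy).1 hlt'
      rw [h] at this
      exact lt_irrefl _ this
  exact le_antisymm (le_of_units _ _ hgA hA' fun y hy h1 => (key y hy).1 h1)
    (le_of_units _ _ hA' hgA fun y hy h1 => (key y hy).2 h1)

end Conjugacy

end Fermat.Agent.S48.B.Val.Conj
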