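/-
PROJECT D (S48), part B, block B2 (abstract valuation theory), file 3 (helper3).

`L / K` finite Galois, `A` a valuation subring of `L`, `D = A.decompositionSubgroup K`.

* `comap_smul` : `(g • A) ∩ K = A ∩ K`.
* `exists_mul_of_unique` : if `E` is an intermediate field and `A ∩ E` is the ONLY valuation
  subring of `E` over `A ∩ K`, then `Gal(L/K) = D · Gal(L/E)`: every `g` is `d * h` with `d ∈ D`,
  `h ∈ E.fixingSubgroup`.  (Shape of `hDB` in `S48/B/Igusa/GroupGen.eq_top_of_upper`.)
* `exists_comap_eq` : every valuation subring of a subfield extends to the big field (Chevalley).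
* `eq_comap_of_decompositionSubgroup_eq_top` : if `D = ⊤` then for EVERY intermediate field `E`,
  `A ∩ E` is the only valuation subring of `E` over `A ∩ K`.

Mathlib only (+ `Val/Conj.lean`).
-/
import Mathlib
import Fermat.Agent.S48.B.Val.Conj

set_option autoImplicit false

namespace Fermat.Agent.S48.B.Val.Decomp

open scoped Pointwise

variable {K L : Type*} [Field K] [Field L] [Algebra K L]

/-- A `K`-automorphism does not change the contraction to `K`. -/
theorem comap_smul (A : ValuationSubring L) (g : L ≃ₐ[K] L) :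
    (g • A).comap (algebraMap K L) = A.comap (algebraMap K L) := by
  ext c
  rw [ValuationSubring.mem_comap, ValuationSubring.mem_pointwise_smul_iff_inv_smul_mem,
    AlgEquiv.smul_def, AlgEquiv.commutes, ← ValuationSubring.mem_comap]

/-- A `K`-automorphism of `L` fixing `E` pointwise, as an `E`-automorphism. -/
theorem smul_restrictScalars (E : IntermediateField K L) (A : ValuationSubring L)
    (σ : L ≃ₐ[E] L) : (σ.restrictScalars K) • A = σ • A := by
  ext x
  rw [ValuationSubring.mem_pointwise_smul_iff_inv_smul_mem,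
    ValuationSubring.mem_pointwise_smul_iff_inv_smul_mem]
  rfl

/-- **`Gal = D · H`** when `A ∩ L^H` is the unique extension of `A ∩ K` to `L^H`. -/
theorem exists_mul_of_unique [FiniteDimensional K L] [IsGalois K L] (A : ValuationSubring L)
    (E : IntermediateField K L)
    (huniq : ∀ A'' : ValuationSubring E,
      A''.comap (algebraMap K E) = (A.comap (algebraMap E L)).comap (algebraMap K E) →
      A'' = A.comap (algebraMap E L))
    (g : L ≃ₐ[K] L) :
    ∃ d ∈ A.decompositionSubgroup K, ∃ h ∈ E.fixingSubgroup, g = d * h := by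
  -- `g⁻¹ • A` and `A` have the same contraction to `E`
  have hE : (g⁻¹ • A).comap (algebraMap E L) = A.comap (algebraMap E L) := by
    refine huniq _ ?_
    have h1 : ∀ B : ValuationSubring L,
        (B.comap (algebraMap E L)).comap (algebraMap K E) = B.comap (algebraMap K L) := by
      intro B
      ext c
      rw [ValuationSubring.mem_comap, ValuationSubring.mem_comap, ValuationSubring.mem_comap,
        ← IsScalarTower.algebraMap_apply]
    rw [h1, h1, comap_smul]
  -- conjugate under `Gal(L/E)`
  obtain ⟨σ, hσ⟩ := Conj.exists_smul_eq (K := E) A (g⁻¹ • A) hE.symm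
  -- `h := σ⁻¹` restricted to `K`, `d := g * σ`
  refine ⟨g * σ.restrictScalars K, ?_, (σ.restrictScalars K)⁻¹, ?_, ?_⟩
  · rw [MulAction.mem_stabilizer_iff, mul_smul, smul_restrictScalars, hσ, smul_inv_smul]
  · refine inv_mem ?_
    rw [IntermediateField.mem_fixingSubgroup_iff]
    intro x hx
    exact σ.commutes ⟨x, hx⟩
  · rw [mul_inv_cancel_right]

section Extend

variable {E L : Type*} [Field E] [Field L]

/-- **Existence of extensions** (Chevalley): every valuation subring of a subfield is the
contraction of a valuation subring of the big field. -/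
theorem exists_comap_eq (f : E →+* L) (A'' : ValuationSubring E) :
    ∃ B : ValuationSubring L, B.comap f = A'' := by
  obtain ⟨B, hB⟩ := (A''.toLocalSubring.map f).exists_le_valuationSubring
  obtain ⟨hle, hloc⟩ := hB
  refine ⟨B, ?_⟩
  have hsub : ∀ x ∈ A'', f x ∈ B := fun x hx => hle ⟨x, hx, rfl⟩
  refine le_antisymm ?_ fun x hx => hsub x hx
  intro x hx
  rw [ValuationSubring.mem_comap] at hx
  by_contra hxA
  have hx0 : x ≠ 0 := by
    rintro rfl
    exact hxA A''.zero_mem
  have hinv : x⁻¹ ∈ A'' := (A''.mem_or_inv_mem x).resolve_left hxA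
  -- the image of `x⁻¹` is a unit of `B`, hence of the image of `A''`
  have hmem : f x⁻¹ ∈ (A''.toLocalSubring.map f).toSubring := ⟨x⁻¹, hinv, rfl⟩
  have hunit : IsUnit (Subring.inclusion hle ⟨f x⁻¹, hmem⟩) := by
    rw [isUnit_iff_exists_inv]
    refine ⟨⟨f x, hx⟩, Subtype.ext ?_⟩
    change f x⁻¹ * f x = 1
    rw [← map_mul, inv_mul_cancel₀ hx0, map_one]
  have hunit' := hloc.map_nonunit _ hunit
  rw [isUnit_iff_exists_inv] at hunit'
  obtain ⟨⟨_, y, hy, rfl⟩, hyx⟩ := hunit'
  have h1 : f x⁻¹ * f y = 1 := congrArg Subtype.val hyx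
  rw [← map_mul, ← map_one f] at h1
  have h2 := f.injective h1
  have h3 : y = x := by
    rw [← mul_one x, ← h2, ← mul_assoc, mul_inv_cancel₀ hx0, one_mul]
  exact hxA (h3 ▸ hy)

end Extend

/-- **`D = ⊤` ⇒ unique extension to every intermediate field.** -/
theorem eq_comap_of_decompositionSubgroup_eq_top [FiniteDimensional K L] [IsGalois K L]
    (A : ValuationSubring L) (hD : A.decompositionSubgroup K = ⊤) (E : IntermediateField K L)
    (A'' : ValuationSubring E)
    (h : A''.comap (algebraMap K E) = (A.comap (algebraMap E L)).comap (algebraMap K E)) :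
    A'' = A.comap (algebraMap E L) := by
  obtain ⟨B, hB⟩ := exists_comap_eq (algebraMap E L) A''
  have h1 : ∀ B' : ValuationSubring L,
      (B'.comap (algebraMap E L)).comap (algebraMap K E) = B'.comap (algebraMap K L) := by
    intro B'
    ext c
    rw [ValuationSubring.mem_comap, ValuationSubring.mem_comap, ValuationSubring.mem_comap,
      ← IsScalarTower.algebraMap_apply]
  have h2 : A.comap (algebraMap K L) = B.comap (algebraMap K L) := by
    rw [← h1, ← h1, hB, h]
  obtain ⟨g, hg⟩ := Conj.exists_smul_eq (K := K) A B h2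
  have hgD : g ∈ A.decompositionSubgroup K := hD ▸ Subgroup.mem_top g
  rw [MulAction.mem_stabilizer_iff] at hgD
  rw [← hB, ← hg, hgD]

end Fermat.Agent.S48.B.Val.Decomp
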